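/-
S21, package A3 (helper48): the period homomorphism of an equivariant primitive kills the
parabolic elements, hence `range (periodHomPair N) ≤ parabolicHoms ℂ (Gamma0 N) ℂ`.
-/
import Mathlib
import Fermat.Prelude.Def_ModularCurve_PeriodHomPair

set_option autoImplicit false

open UpperHalfPlane CongruenceSubgroup Filter Topology ModularCurve ModularCurve.Period

open scoped MatrixGroups

namespace Fermat.Agent.S21.H48

/-- An element of `SL(2, ℤ)` with first column `(1, 0)` is a power of `T`. -/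
theorem eq_T_zpow_of_col (g : SL(2, ℤ)) (h00 : g 0 0 = 1) (h10 : g 1 0 = 0) :
    g = ModularGroup.T ^ (g 0 1) := by
  have had := g.det_coe
  rw [Matrix.det_fin_two, h10, h00] at had
  have hd : g 1 1 = 1 := by linarith
  ext i j
  fin_cases i <;> fin_cases j <;>
    simp [h00, h10, hd, ModularGroup.coe_T_zpow, show (1 : Fin (0 + 2)) = (1 : Fin 2) from rfl]

/-- An element of `SL(2, ℤ)` of trace `2` is conjugate in `SL(2, ℤ)` to a power of `T`. -/
theorem exists_conj_T_zpow_of_trace_two (γ : SL(2, ℤ))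
    (h : (γ : Matrix (Fin 2) (Fin 2) ℤ).trace = 2) :
    ∃ (δ : SL(2, ℤ)) (m : ℤ), γ = δ * ModularGroup.T ^ m * δ⁻¹ := by
  have htr : γ 0 0 + γ 1 1 = 2 := by rw [← h, Matrix.trace_fin_two]
  have hdet : γ 0 0 * γ 1 1 - γ 0 1 * γ 1 0 = 1 := by
    rw [← Matrix.det_fin_two]; exact γ.det_coe
  by_cases h0 : γ 0 0 - 1 = 0 ∧ γ 1 0 = 0
  · -- `γ` is already a power of `T`
    refine ⟨1, γ 0 1, ?_⟩
    rw [one_mul, inv_one, mul_one]
    exact eq_T_zpow_of_col γ (by linarith [h0.1]) h0.2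
  · -- primitive fixed vector `(x, y)` proportional to `(γ 0 0 - 1, γ 1 0)`
    have hg : Int.gcd (γ 0 0 - 1) (γ 1 0) ≠ 0 := by
      intro hg
      rw [Int.gcd_eq_zero_iff] at hg
      exact h0 hg
    obtain ⟨x, y, hcop, hx, hy⟩ :
        ∃ x y : ℤ, IsCoprime x y ∧ γ 0 0 - 1 = x * (Int.gcd (γ 0 0 - 1) (γ 1 0) : ℤ)
          ∧ γ 1 0 = y * (Int.gcd (γ 0 0 - 1) (γ 1 0) : ℤ) := by
      obtain ⟨x, y, hxy, hx, hy⟩ := Int.exists_gcd_one (Nat.pos_of_ne_zero hg)
      exact ⟨x, y, Int.isCoprime_iff_gcd_eq_one.mpr hxy, hx, hy⟩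
    set g : ℤ := (Int.gcd (γ 0 0 - 1) (γ 1 0) : ℤ) with hgdef
    have hg0 : g ≠ 0 := by rw [hgdef]; exact Int.natCast_ne_zero.mpr hg
    -- the vector `(x, y)` is fixed by `γ`
    have e1 : (γ 0 0 - 1) * x + γ 0 1 * y = 0 := by
      have : g * ((γ 0 0 - 1) * x + γ 0 1 * y) = 0 := by
        have h1 : g * x = γ 0 0 - 1 := by rw [hx]; ring
        have h2 : g * y = γ 1 0 := by rw [hy]; ring
        calc g * ((γ 0 0 - 1) * x + γ 0 1 * y)
            = (γ 0 0 - 1) * (g * x) + γ 0 1 * (g * y) := by ring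
          _ = (γ 0 0 - 1) * (γ 0 0 - 1) + γ 0 1 * γ 1 0 := by rw [h1, h2]
          _ = 0 := by linear_combination (γ 0 0) * htr - hdet
      rcases mul_eq_zero.mp this with h' | h'
      · exact absurd h' hg0
      · exact h'
    have e2 : γ 1 0 * x + (γ 1 1 - 1) * y = 0 := by
      have : g * (γ 1 0 * x + (γ 1 1 - 1) * y) = 0 := by
        have h1 : g * x = γ 0 0 - 1 := by rw [hx]; ring
        have h2 : g * y = γ 1 0 := by rw [hy]; ring
        calc g * (γ 1 0 * x + (γ 1 1 - 1) * y)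
            = γ 1 0 * (g * x) + (γ 1 1 - 1) * (g * y) := by ring
          _ = γ 1 0 * (γ 0 0 - 1) + (γ 1 1 - 1) * γ 1 0 := by rw [h1, h2]
          _ = 0 := by linear_combination (γ 1 0) * htr
      rcases mul_eq_zero.mp this with h' | h'
      · exact absurd h' hg0
      · exact h'
    obtain ⟨s, r, hsr⟩ := hcop
    -- `δ = [[x, -r], [y, s]]`
    let δ : SL(2, ℤ) := ⟨!![x, -r; y, s], by rw [Matrix.det_fin_two_of]; linarith⟩
    have hδ00 : δ 0 0 = x := rfl
    have hδ01 : δ 0 1 = -r := rfl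
    have hδ10 : δ 1 0 = y := rfl
    have hδ11 : δ 1 1 = s := rfl
    have hi00 : (δ⁻¹ : SL(2, ℤ)) 0 0 = s := by
      rw [Matrix.SpecialLinearGroup.coe_inv, Matrix.adjugate_fin_two]; simp [hδ11]
    have hi01 : (δ⁻¹ : SL(2, ℤ)) 0 1 = r := by
      rw [Matrix.SpecialLinearGroup.coe_inv, Matrix.adjugate_fin_two]; simp [hδ01]
    have hi10 : (δ⁻¹ : SL(2, ℤ)) 1 0 = -y := by
      rw [Matrix.SpecialLinearGroup.coe_inv, Matrix.adjugate_fin_two]; simp [hδ10]
    have hi11 : (δ⁻¹ : SL(2, ℤ)) 1 1 = x := by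
      rw [Matrix.SpecialLinearGroup.coe_inv, Matrix.adjugate_fin_two]; simp [hδ00]
    have hc00 : (δ⁻¹ * γ * δ) 0 0 = 1 := by
      simp only [Matrix.SpecialLinearGroup.coe_mul, Matrix.mul_apply, Fin.sum_univ_two,
        hδ00, hδ10, hi00, hi01]
      have ex : γ 0 0 * x + γ 0 1 * y = x := by linarith
      have ey : γ 1 0 * x + γ 1 1 * y = y := by linarith
      calc (s * γ 0 0 + r * γ 1 0) * x + (s * γ 0 1 + r * γ 1 1) * y
          = s * (γ 0 0 * x + γ 0 1 * y) + r * (γ 1 0 * x + γ 1 1 * y) := by ring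
        _ = s * x + r * y := by rw [ex, ey]
        _ = 1 := hsr
    have hc10 : (δ⁻¹ * γ * δ) 1 0 = 0 := by
      simp only [Matrix.SpecialLinearGroup.coe_mul, Matrix.mul_apply, Fin.sum_univ_two,
        hδ00, hδ10, hi10, hi11]
      have ex : γ 0 0 * x + γ 0 1 * y = x := by linarith
      have ey : γ 1 0 * x + γ 1 1 * y = y := by linarith
      calc (-y * γ 0 0 + x * γ 1 0) * x + (-y * γ 0 1 + x * γ 1 1) * y
          = -y * (γ 0 0 * x + γ 0 1 * y) + x * (γ 1 0 * x + γ 1 1 * y) := by ring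
        _ = -y * x + x * y := by rw [ex, ey]
        _ = 0 := by ring
    refine ⟨δ, (δ⁻¹ * γ * δ) 0 1, ?_⟩
    rw [← eq_T_zpow_of_col (δ⁻¹ * γ * δ) hc00 hc10]
    group

/-- **A3a.** An element of `SL(2, ℤ)` with `trace ^ 2 = 4` is, up to sign, conjugate in
`SL(2, ℤ)` to a power of `T`. -/
theorem exists_conj_T_zpow (γ : SL(2, ℤ))
    (h : (γ : Matrix (Fin 2) (Fin 2) ℤ).trace ^ 2 = 4) :
    ∃ (δ : SL(2, ℤ)) (m : ℤ),
      γ = δ * ModularGroup.T ^ m * δ⁻¹ ∨ γ = -(δ * ModularGroup.T ^ m * δ⁻¹) := by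
  have h2 : (γ : Matrix (Fin 2) (Fin 2) ℤ).trace = 2 ∨
      (γ : Matrix (Fin 2) (Fin 2) ℤ).trace = -2 := by
    have : ((γ : Matrix (Fin 2) (Fin 2) ℤ).trace - 2) *
        ((γ : Matrix (Fin 2) (Fin 2) ℤ).trace + 2) = 0 := by linarith
    rcases mul_eq_zero.mp this with h' | h'
    · left; linarith
    · right; linarith
  rcases h2 with h2 | h2
  · obtain ⟨δ, m, hδ⟩ := exists_conj_T_zpow_of_trace_two γ h2
    exact ⟨δ, m, Or.inl hδ⟩
  · have h3 : ((-γ : SL(2, ℤ)) : Matrix (Fin 2) (Fin 2) ℤ).trace = 2 := by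
      rw [Matrix.SpecialLinearGroup.coe_neg, Matrix.trace_neg, h2]; norm_num
    obtain ⟨δ, m, hδ⟩ := exists_conj_T_zpow_of_trace_two (-γ) h3
    exact ⟨δ, m, Or.inr (by rw [← hδ, neg_neg])⟩

/-- `w ↦ T ^ m • w` tends to `i∞` along `i∞`. -/
theorem tendsto_T_zpow_smul_atImInfty (m : ℤ) :
    Tendsto (fun w : ℍ => ModularGroup.T ^ m • w) atImInfty atImInfty := by
  rw [atImInfty, tendsto_comap_iff]
  have : (UpperHalfPlane.im ∘ fun w : ℍ => ModularGroup.T ^ m • w) = UpperHalfPlane.im := by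
    funext w
    exact ModularGroup.im_T_zpow_smul w m
  rw [this]
  exact tendsto_comap

/-- **A3b.** The period of an equivariant primitive with limits at all cusps vanishes on every
element of trace `±2`. -/
theorem period_eq_zero_of_trace_sq {N : ℕ} {F : ℍ → ℂ}
    (hF : IsEquivariantPrimitive (Gamma0 N) F)
    (hlim : ∀ δ : SL(2, ℤ), ∃ L : ℂ, Tendsto (fun w : ℍ => F (δ • w)) atImInfty (𝓝 L))
    (γ : Gamma0 N)
    (hγ : ((γ : SL(2, ℤ)) : Matrix (Fin 2) (Fin 2) ℤ).trace ^ 2 = 4) :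
    hF.period γ = 0 := by
  obtain ⟨δ, m, hδ⟩ := exists_conj_T_zpow (γ : SL(2, ℤ)) hγ
  obtain ⟨L, hL⟩ := hlim δ
  -- `γ • (δ • w) = δ • (T ^ m • w)`
  have hact : ∀ w : ℍ, (γ : SL(2, ℤ)) • (δ • w) = δ • (ModularGroup.T ^ m • w) := by
    intro w
    rcases hδ with hδ | hδ
    · rw [hδ, ← mul_smul, ← mul_smul]
      congr 1
      group
    · rw [hδ, ModularGroup.SL_neg_smul, ← mul_smul, ← mul_smul]
      congr 1
      group
  have hper : ∀ w : ℍ, F (δ • (ModularGroup.T ^ m • w)) - F (δ • w) = hF.period γ := by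
    intro w
    rw [← hact w]
    exact hF.sub_eq_period γ (δ • w)
  have h1 : Tendsto (fun w : ℍ => F (δ • (ModularGroup.T ^ m • w)) - F (δ • w)) atImInfty
      (𝓝 (L - L)) :=
    (hL.comp (tendsto_T_zpow_smul_atImInfty m)).sub hL
  have h2 : Tendsto (fun w : ℍ => F (δ • (ModularGroup.T ^ m • w)) - F (δ • w)) atImInfty
      (𝓝 (hF.period γ)) := by
    simp only [hper]
    exact tendsto_const_nhds
  have := tendsto_nhds_unique h2 h1
  rw [this, sub_self]

/-- Convenience for A4: if `δ T^m δ⁻¹ ∈ Γ₀(N)` then `F ∘ δ` is invariant under `T ^ m`. -/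
theorem comp_conj_T_zpow_periodic {N : ℕ} {F : ℍ → ℂ}
    (hF : IsEquivariantPrimitive (Gamma0 N) F)
    (hlim : ∀ δ : SL(2, ℤ), ∃ L : ℂ, Tendsto (fun w : ℍ => F (δ • w)) atImInfty (𝓝 L))
    (δ : SL(2, ℤ)) (m : ℤ) (hm : δ * ModularGroup.T ^ m * δ⁻¹ ∈ Gamma0 N) (w : ℍ) :
    F (δ • (ModularGroup.T ^ m • w)) = F (δ • w) := by
  have htr : (((⟨δ * ModularGroup.T ^ m * δ⁻¹, hm⟩ : Gamma0 N) : SL(2, ℤ)) :
      Matrix (Fin 2) (Fin 2) ℤ).trace ^ 2 = 4 := by
    have : ((δ * ModularGroup.T ^ m * δ⁻¹ : SL(2, ℤ)) : Matrix (Fin 2) (Fin 2) ℤ).trace = 2 := by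
      rw [Matrix.SpecialLinearGroup.coe_mul, Matrix.trace_mul_comm, ← Matrix.SpecialLinearGroup.coe_mul,
        inv_mul_cancel_left, ModularGroup.coe_T_zpow, Matrix.trace_fin_two_of]
      norm_num
    show ((δ * ModularGroup.T ^ m * δ⁻¹ : SL(2, ℤ)) : Matrix (Fin 2) (Fin 2) ℤ).trace ^ 2 = 4
    rw [this]; norm_num
  have h0 := period_eq_zero_of_trace_sq hF hlim ⟨δ * ModularGroup.T ^ m * δ⁻¹, hm⟩ htr
  have h1 := hF.sub_eq_period ⟨δ * ModularGroup.T ^ m * δ⁻¹, hm⟩ (δ • w)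
  rw [h0] at h1
  have h2 : ((⟨δ * ModularGroup.T ^ m * δ⁻¹, hm⟩ : Gamma0 N) : SL(2, ℤ)) • (δ • w)
      = δ • (ModularGroup.T ^ m • w) := by
    show (δ * ModularGroup.T ^ m * δ⁻¹) • (δ • w) = δ • (ModularGroup.T ^ m • w)
    rw [← mul_smul, ← mul_smul]
    congr 1
    group
  rw [h2] at h1
  exact sub_eq_zero.mp h1

/-- **A3c.** The period homomorphism of an equivariant primitive of a cusp form is parabolic. -/
theorem periodHom_mem_parabolicHoms {N : ℕ} {f : CuspForm (Gamma0 N) 2} {F : ℍ → ℂ}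
    (hF : HasEquivariantPrimitive N f F) :
    hF.2.2.1.periodHom ∈ parabolicHoms ℂ (Gamma0 N) ℂ := by
  rw [mem_parabolicHoms_iff]
  intro γ hγ
  rw [IsEquivariantPrimitive.periodHom_apply]
  exact period_eq_zero_of_trace_sq hF.2.2.1 hF.2.2.2 γ hγ

/-- **A3d.** `periodMap N f` is always a parabolic homomorphism (unconditionally). -/
theorem periodMap_mem_parabolicHoms (N : ℕ) (f : CuspForm (Gamma0 N) 2) :
    periodMap N f ∈ parabolicHoms ℂ (Gamma0 N) ℂ := by
  classical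
  by_cases h : ∃ F : ℍ → ℂ, HasEquivariantPrimitive N f F
  · obtain ⟨F, hF⟩ := h
    obtain ⟨F₀, h₀, hp⟩ := periodMap_def N f hF
    rw [hp]
    exact periodHom_mem_parabolicHoms h₀
  · have : periodMap N f = 0 := by
      unfold periodMap
      rw [dif_neg h]
    rw [this]
    exact Submodule.zero_mem _

/-- **A3e.** The range of `periodHomPair N` consists of parabolic homomorphisms
(unconditionally). -/
theorem range_periodHomPair_le (N : ℕ) :
    LinearMap.range (periodHomPair N) ≤ parabolicHoms ℂ (Gamma0 N) ℂ := by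
  classical
  by_cases h : ExistsPeriodMapLinear N
  · obtain ⟨pml, hpml, hdef⟩ := periodHomPair_def N h
    rintro _ ⟨⟨f, g⟩, rfl⟩
    rw [hdef]
    have hf : pml f ∈ parabolicHoms ℂ (Gamma0 N) ℂ := by
      rw [hpml f]; exact periodMap_mem_parabolicHoms N f
    have hg : pml g ∈ parabolicHoms ℂ (Gamma0 N) ℂ := by
      rw [hpml g]; exact periodMap_mem_parabolicHoms N g
    have hf' := charInvolution_mem_parabolicHoms N ℂ ℂ hf
    have hg' := charInvolution_mem_parabolicHoms N ℂ ℂ hg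
    simp only [LinearMap.coprod_apply, LinearMap.comp_apply, LinearMap.add_apply,
      LinearMap.sub_apply, LinearMap.id_apply]
    exact Submodule.add_mem _ (Submodule.add_mem _ hf hf') (Submodule.sub_mem _ hg hg')
  · have : periodHomPair N = 0 := by
      unfold periodHomPair
      rw [dif_neg h]
    rw [this, LinearMap.range_zero]
    exact bot_le

end Fermat.Agent.S21.H48
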